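/-
P-CFT / LOCAL, block LOC-6 (row 631, architect helper24): the `p`-torsion of the Brauer group
of a local field.  INTERFACES of the sub-rows (definitions and Prop-statements only).

Target: `Fermat.Agent.H78.CFT.BrauerPStatement`.

Two currencies:
* CONCRETE: `E : IntermediateField ℚ ℚ̄` with `IsLocalFinite q E`, `F L : IntermediateField E ℚ̄`
  finite Galois over `E`;
* ABSTRACT: fields `K F : Type`, `[Algebra K F]`, with an embedding `j : F →+* ℚ̄` such that the
  image of `K` is a local-finite field (`IsLocalPair q K F j`).  This is what the layers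
  (`M : IntermediateField K F`, fixed fields of subgroups) look like.

Cohomology is Mathlib's `groupCohomology.H2 (Rep.ofAlgebraAutOnUnits K F)`; multiplicative
cochains are related to it by helper61's `h2Class` dictionary
(`Fermat.Agent.H61.CFT.UnramBrauerH2`).

ROUTE.
 (1) `UnramSplitStatement`  : for `F / E` finite Galois of degree `n` there are `L ⊇ F` finite
     Galois over `E` and a class `y ∈ H²(Gal(L/E), Lˣ)` of order divisible by `n` whose
     restriction to `Gal(L/F)` vanishes  (`L = F · E_n`, `y` = inflation of the unramified class;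
     needs `e f = n` = helper81's `Fermat.Agent.H81.Local.exists_ef`).
 (2) `OrderBoundAbsStatement` : `# H²(Gal(F/K), Fˣ) ∣ [F : K]` for `p`-groups (helper44 + norm
     index theorem on the layers).
 (3) `PGroupCyclicStatement` : `H²(Gal(F/E), Fˣ)` is cyclic for `p`-groups   [(1) + (2) +
     inflation-restriction].
 (4) `PTorsionCyclicAbsStatement` : the `p`-torsion of `H²(Gal(F/K), Fˣ)` is cyclic (of order
     `≤ p`) for EVERY finite Galois `F / K`  [(3) for the fixed field of a Sylow subgroup +
     transfer].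
 (5) finite level ⟶ level cochains (`FinToLvlStatement`, `InflCompStatement`,
     `InflFinInjStatement`) and the unramified class of degree `p` (`UnramClassPStatement`).
 (6) assembly: `BrauerPStatement`.
-/
import Fermat.Agent.H78.CFT.LocalRows
import Fermat.Agent.H78.CFT.LocalDefs
import Fermat.Agent.H61.CFT.UnramBaseChange
import Fermat.Agent.H61.CFT.UnramBrauerH2
import Fermat.Agent.H49.CFT.UnramQbar
import Fermat.Agent.H81.Local.LocalDatum

set_option autoImplicit false
set_option linter.style.haveILetI false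
-- instance search for `MulDistribMulAction (L ≃ₐ[E] L) Lˣ` with `L : IntermediateField E ℚ̄` is slow
-- under `import Mathlib`; consumers need the same option.
set_option synthInstance.maxHeartbeats 400000

noncomputable section

open CategoryTheory groupCohomology

namespace Fermat.Agent.H24.Brauer

open Fermat.Agent.H78.CFT Fermat.Agent.H81.Local Fermat.Agent.H61.CFT Fermat.Agent.H49.Unram

/-! ### The abstract currency -/

/-- `K ⊆ F` abstract fields with an embedding `j : F →+* ℚ̄` such that the image of `K` is a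
finite extension of `K_v` inside `ℚ̄`. -/
def IsLocalPair (q : ℕ) [Fact q.Prime] (K F : Type) [Field K] [Field F] [Algebra K F]
    (j : F →+* Qb) : Prop :=
  ∃ E₀ : IntermediateField ℚ Qb, IsLocalFinite q E₀ ∧
    ∀ x : Qb, x ∈ E₀ ↔ ∃ k : K, j (algebraMap K F k) = x

/-- The concrete currency is an instance of the abstract one. -/
theorem isLocalPair_of_intermediateField {q : ℕ} [Fact q.Prime] {E : IntermediateField ℚ Qb}
    (hE : IsLocalFinite q E) (F : IntermediateField E Qb) :
    IsLocalPair q E F (algebraMap F Qb) :=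
  ⟨E, hE, fun x => ⟨fun hx => ⟨⟨x, hx⟩, rfl⟩, by rintro ⟨k, rfl⟩; exact k.2⟩⟩

/-- **[BR-PAIR a]** an intermediate layer `K ⊆ M ⊆ F` of a local pair: `(M, F)` is a local
pair. -/
def LocalPairTowerStatement : Prop :=
  ∀ (q : ℕ) [Fact q.Prime] (K M F : Type) [Field K] [Field M] [Field F] [Algebra K M]
    [Algebra M F] [Algebra K F] [IsScalarTower K M F] [FiniteDimensional K F] (j : F →+* Qb),
    IsLocalPair q K F j → IsLocalPair q M F j

/-- **[BR-PAIR b]** a layer `M ⊆ M'` inside `F / K`: `(M, M')` is a local pair. -/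
def LocalPairLayerStatement : Prop :=
  ∀ (q : ℕ) [Fact q.Prime] (K F : Type) [Field K] [Field F] [Algebra K F]
    [FiniteDimensional K F] (j : F →+* Qb), IsLocalPair q K F j →
    ∀ (M : IntermediateField K F) (M' : IntermediateField M F),
      IsLocalPair q M M' (j.comp (algebraMap M' F))

/-- **[BR-PAIR c]** the `LocalNormDatum` of a local pair (transport of helper81's
`localNormDatum` along `j`). -/
def LocalDatumAbsStatement : Prop :=
  ∀ (q : ℕ) [Fact q.Prime] (K F : Type) [Field K] [Field F] [Algebra K F]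
    [FiniteDimensional K F] (j : F →+* Qb), IsLocalPair q K F j →
    LocalNormDatum K F ((qVal q).comap j)

/-- **[BR-CONC]** concretization of a local pair: the images `E₀ = j(K)`, `F₁ = j(F)` in the
concrete currency, with the induced isomorphisms of Galois groups and of `H²`. -/
def ConcretizeStatement : Prop :=
  ∀ (q : ℕ) [Fact q.Prime] (K F : Type) [Field K] [Field F] [Algebra K F]
    [FiniteDimensional K F] [IsGalois K F] (j : F →+* Qb), IsLocalPair q K F j →
    ∃ (E₀ : IntermediateField ℚ Qb) (_ : IsLocalFinite q E₀) (F₁ : IntermediateField E₀ Qb)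
      (_ : FiniteDimensional E₀ F₁) (_ : IsGalois E₀ F₁),
      (∀ x : Qb, x ∈ F₁ ↔ ∃ y : F, j y = x) ∧
      Nonempty ((F ≃ₐ[K] F) ≃* (F₁ ≃ₐ[E₀] F₁)) ∧
      Nonempty (groupCohomology.H2 (Rep.ofAlgebraAutOnUnits K F) ≃+
        groupCohomology.H2 (Rep.ofAlgebraAutOnUnits E₀ F₁))

/-! ### The arithmetic input -/

/-- The subgroup of `Gal(L/E)` fixing `F ∩ L` pointwise (`= Gal(L/F)` when `F ≤ L`). -/
def galSub (E : IntermediateField ℚ Qb) (F L : IntermediateField E Qb) :
    Subgroup (L ≃ₐ[E] L) where
  carrier := {σ | ∀ x : L, (x : Qb) ∈ F → σ x = x}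
  one_mem' := fun _ _ => rfl
  mul_mem' := fun {a b} ha hb x hx => by
    rw [AlgEquiv.mul_apply, hb x hx, ha x hx]
  inv_mem' := fun {a} ha x hx => by
    have h := ha x hx
    calc a⁻¹ x = a⁻¹ (a x) := by rw [h]
      _ = x := a.symm_apply_apply x

theorem mem_galSub {E : IntermediateField ℚ Qb} {F L : IntermediateField E Qb}
    {σ : L ≃ₐ[E] L} : σ ∈ galSub E F L ↔ ∀ x : L, (x : Qb) ∈ F → σ x = x := Iff.rfl

/-- **[BR-UNRAM]** every finite Galois `F / E` of degree `n` is split by the unramified class: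
there are `L ⊇ F` finite Galois over `E` and `y ∈ H²(Gal(L/E), Lˣ)` of order divisible by `n`
whose restriction to `Gal(L/F)` vanishes. -/
def UnramSplitStatement : Prop :=
  ∀ (q : ℕ) [Fact q.Prime] (E : IntermediateField ℚ Qb), IsLocalFinite q E →
    ∀ (F : IntermediateField E Qb) [FiniteDimensional E F] [IsGalois E F],
      ∃ (L : IntermediateField E Qb) (_ : FiniteDimensional E L) (_ : IsGalois E L),
        F ≤ L ∧ ∃ y : groupCohomology.H2 (Rep.ofAlgebraAutOnUnits E L),
          (∀ m : ℤ, m • y = 0 → (Module.finrank E F : ℤ) ∣ m) ∧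
          groupCohomology.map (galSub E F L).subtype
            (𝟙 (Rep.res (galSub E F L).subtype (Rep.ofAlgebraAutOnUnits E L))) 2 y = 0

/-! ### The cohomological statements -/

/-- **[BR-ORD]** the order bound for `p`-groups, abstract currency. -/
def OrderBoundAbsStatement : Prop :=
  ∀ (p q : ℕ) [Fact p.Prime] [Fact q.Prime] (K F : Type) [Field K] [Field F] [Algebra K F]
    [FiniteDimensional K F] [IsGalois K F] (j : F →+* Qb), IsLocalPair q K F j →
    IsPGroup p (F ≃ₐ[K] F) →
    Finite (groupCohomology.H2 (Rep.ofAlgebraAutOnUnits K F)) ∧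
      Nat.card (groupCohomology.H2 (Rep.ofAlgebraAutOnUnits K F)) ∣ Module.finrank K F

/-- **[BR-PCYC]** `H²(Gal(F/E), Fˣ)` is cyclic if `Gal(F/E)` is a `p`-group (concrete). -/
def PGroupCyclicStatement : Prop :=
  ∀ (p q : ℕ) [Fact p.Prime] [Fact q.Prime] (E : IntermediateField ℚ Qb), IsLocalFinite q E →
    ∀ (F : IntermediateField E Qb) [FiniteDimensional E F] [IsGalois E F],
      IsPGroup p (F ≃ₐ[E] F) →
      IsAddCyclic (groupCohomology.H2 (Rep.ofAlgebraAutOnUnits E F))

/-- `H²(Gal(F/K), Fˣ)` is cyclic if `Gal(F/K)` is a `p`-group (abstract). -/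
def PGroupCyclicAbsStatement : Prop :=
  ∀ (p q : ℕ) [Fact p.Prime] [Fact q.Prime] (K F : Type) [Field K] [Field F] [Algebra K F]
    [FiniteDimensional K F] [IsGalois K F] (j : F →+* Qb), IsLocalPair q K F j →
    IsPGroup p (F ≃ₐ[K] F) →
    IsAddCyclic (groupCohomology.H2 (Rep.ofAlgebraAutOnUnits K F))

/-- **[BR-SYLOW]** the `p`-torsion of `H²(Gal(F/K), Fˣ)` is cyclic, for every finite Galois
extension of local fields (abstract currency). -/
def PTorsionCyclicAbsStatement : Prop :=
  ∀ (p q : ℕ) [Fact p.Prime] [Fact q.Prime] (K F : Type) [Field K] [Field F] [Algebra K F]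
    [FiniteDimensional K F] [IsGalois K F] (j : F →+* Qb), IsLocalPair q K F j →
    ∀ x₁ x₂ : groupCohomology.H2 (Rep.ofAlgebraAutOnUnits K F),
      p • x₁ = 0 → p • x₂ = 0 → x₁ ≠ 0 → ∃ m : ℤ, x₂ = m • x₁

/-! ### Finite level versus level cochains -/

/-- Restriction `Gal(L/E) → Gal(F/E)` for `F ≤ L` intermediate fields of `ℚ̄ / E`. -/
def resFL (E : IntermediateField ℚ Qb) (F L : IntermediateField E Qb) (h : F ≤ L)
    [Normal E F] : (L ≃ₐ[E] L) →* (F ≃ₐ[E] F) :=
  letI : Algebra F L := (IntermediateField.inclusion h).toRingHom.toAlgebra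
  haveI : IsScalarTower E F L := IsScalarTower.of_algebraMap_eq (fun _ => rfl)
  AlgEquiv.restrictNormalHom F

theorem resFL_apply (E : IntermediateField ℚ Qb) (F L : IntermediateField E Qb) (h : F ≤ L)
    [Normal E F] (σ : L ≃ₐ[E] L) (x : F) :
    ((resFL E F L h σ x : F) : Qb) = ((σ (IntermediateField.inclusion h x) : L) : Qb) := by
  letI : Algebra F L := (IntermediateField.inclusion h).toRingHom.toAlgebra
  haveI : IsScalarTower E F L := IsScalarTower.of_algebraMap_eq (fun _ => rfl)
  exact congrArg (fun y : L => (y : Qb)) (AlgEquiv.restrictNormal_commutes σ F x)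

/-- The inclusion `Fˣ → Lˣ`. -/
def unitsFL (E : IntermediateField ℚ Qb) (F L : IntermediateField E Qb) (h : F ≤ L) :
    Fˣ →* Lˣ :=
  Units.map ((IntermediateField.inclusion h : F →+* L) : F →* L)

/-- Inflation of finite level 2-cochains from `Gal(F/E)` to `Gal(L/E)`. -/
def inflFL (E : IntermediateField ℚ Qb) (F L : IntermediateField E Qb) (h : F ≤ L)
    [Normal E F] (c : (F ≃ₐ[E] F) × (F ≃ₐ[E] F) → Fˣ) :
    (L ≃ₐ[E] L) × (L ≃ₐ[E] L) → Lˣ :=
  pullCochain (resFL E F L h) (unitsFL E F L h) c

/-- **[BR-FIN a]** a finite level coboundary inflates to a level coboundary. -/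
def FinToLvlStatement : Prop :=
  ∀ (E : IntermediateField ℚ Qb) (L : IntermediateField E Qb) [FiniteDimensional E L]
    [IsGalois E L] (c : (L ≃ₐ[E] L) × (L ≃ₐ[E] L) → Lˣ),
    IsMulCoboundary₂ c → IsLvlMulCoboundary₂E E (inflE E L c)

/-- **[BR-FIN b]** inflation to `G_E` factors through the finite level inflation. -/
def InflCompStatement : Prop :=
  ∀ (E : IntermediateField ℚ Qb) (F L : IntermediateField E Qb) (h : F ≤ L)
    [FiniteDimensional E F] [IsGalois E F] [FiniteDimensional E L] [IsGalois E L]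
    (c : (F ≃ₐ[E] F) × (F ≃ₐ[E] F) → Fˣ) (x : E.fixingSubgroup × E.fixingSubgroup),
    inflE E L (inflFL E F L h c) x = inflE E F c x

/-- **[BR-FIN c]** finite level inflation is injective on classes (Hilbert 90). -/
def InflFinInjStatement : Prop :=
  ∀ (E : IntermediateField ℚ Qb) (F L : IntermediateField E Qb) (h : F ≤ L)
    [FiniteDimensional E F] [IsGalois E F] [FiniteDimensional E L] [IsGalois E L]
    (c : (F ≃ₐ[E] F) × (F ≃ₐ[E] F) → Fˣ), IsMulCocycle₂ c →
    IsMulCoboundary₂ (inflFL E F L h c) → IsMulCoboundary₂ c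

/-- **[BR-UCLASS]** the unramified class of degree `p`: a 2-cocycle on a finite Galois
`F₀ / E` which is not a coboundary and whose `p`-th power is. -/
def UnramClassPStatement : Prop :=
  ∀ (p : ℕ) [Fact p.Prime] (q : ℕ) [Fact q.Prime] (E : IntermediateField ℚ Qb),
    IsLocalFinite q E →
    ∃ (F₀ : IntermediateField E Qb) (_ : FiniteDimensional E F₀) (_ : IsGalois E F₀)
      (u : (F₀ ≃ₐ[E] F₀) × (F₀ ≃ₐ[E] F₀) → F₀ˣ), IsMulCocycle₂ u ∧
      IsMulCoboundary₂ (fun x => u x ^ p) ∧ ¬ IsMulCoboundary₂ u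

end Fermat.Agent.H24.Brauer

end
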