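/-
P-CFT / LOCAL, block LOC-6 (row 631, helper24): ASSEMBLY of `BrauerPStatement` from the
sub-rows of `Fermat.Agent.H24.Brauer.Interfaces`.
-/
import Fermat.Agent.H24.Brauer.Interfaces
import Fermat.Agent.H44.CFT.OrderBoundFinal
import Fermat.Agent.H78.CFT.LocalNormIndexU

set_option autoImplicit false
set_option linter.style.haveILetI false
set_option synthInstance.maxHeartbeats 400000

noncomputable section

open CategoryTheory groupCohomology

namespace Fermat.Agent.H24.Brauer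

open Fermat.Agent.H78.CFT Fermat.Agent.H81.Local Fermat.Agent.H61.CFT Fermat.Agent.H49.Unram

/-- **[BR-ORD]** the order bound for `p`-groups in the abstract currency, from the
`LocalNormDatum` of the layers. -/
theorem orderBoundAbs_of (h1 : LocalPairLayerStatement) (h2 : LocalDatumAbsStatement) :
    OrderBoundAbsStatement := by
  intro p q _ _ K F _ _ _ _ _ j hj hG
  refine Fermat.Agent.H44.CFT.orderBound_of_layerNorm p K F hG ?_
  intro M M' hGal hdeg
  have hp : p.Prime := Fact.out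
  haveI : FiniteDimensional M M' :=
    Module.finite_of_finrank_pos (by rw [hdeg]; exact hp.pos)
  have hpair := h1 q K F j hj M M'
  have hd := h2 q M M' (j.comp (algebraMap M' F)) hpair
  have hcard : Nat.card (M' ≃ₐ[M] M') = p := by
    rw [IsGalois.card_aut_eq_finrank, hdeg]
  haveI : IsCyclic (M' ≃ₐ[M] M') := isCyclic_of_prime_card hcard
  have hidx := Fermat.Agent.H78.CFT.normSubgroup_indexU hd
  have : (Units.map (Algebra.norm M : M' →* M)).range.index = p := by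
    rw [← hdeg, ← hidx]
    rfl
  rw [this]

/-- `H²` is cyclic for `p`-groups in the abstract currency, from the concrete statement. -/
theorem pGroupCyclicAbs_of (h1 : ConcretizeStatement) (h2 : PGroupCyclicStatement) :
    PGroupCyclicAbsStatement := by
  intro p q _ _ K F _ _ _ _ _ j hj hG
  obtain ⟨E₀, hE₀, F₁, hfd, hgal, -, ⟨eG⟩, ⟨eH⟩⟩ := h1 q K F j hj
  have hP : IsPGroup p (F₁ ≃ₐ[E₀] F₁) := hG.of_equiv eG
  haveI := h2 p q E₀ hE₀ F₁ hP
  exact isAddCyclic_of_surjective eH.symm eH.symm.surjective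

/-! ### The final assembly -/

/-- Equivariance of the inclusion of units. -/
lemma unitsFL_smul (E : IntermediateField ℚ Qb) (F L : IntermediateField E Qb) (h : F ≤ L)
    [Normal E F] (σ : L ≃ₐ[E] L) (a : Fˣ) :
    unitsFL E F L h (resFL E F L h σ • a) = σ • unitsFL E F L h a := by
  apply Units.ext
  apply Subtype.ext
  exact resFL_apply E F L h σ (a : F)

lemma isMulCocycle₂_inflFL (E : IntermediateField ℚ Qb) (F L : IntermediateField E Qb)
    (h : F ≤ L) [Normal E F] {c : (F ≃ₐ[E] F) × (F ≃ₐ[E] F) → Fˣ} (hc : IsMulCocycle₂ c) :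
    IsMulCocycle₂ (inflFL E F L h c) :=
  isMulCocycle₂_pullCochain (resFL E F L h) (unitsFL E F L h) (unitsFL_smul E F L h) hc

lemma isMulCoboundary₂_inflFL (E : IntermediateField ℚ Qb) (F L : IntermediateField E Qb)
    (h : F ≤ L) [Normal E F] {c : (F ≃ₐ[E] F) × (F ≃ₐ[E] F) → Fˣ} (hc : IsMulCoboundary₂ c) :
    IsMulCoboundary₂ (inflFL E F L h c) :=
  isMulCoboundary₂_pullCochain (resFL E F L h) (unitsFL E F L h) (unitsFL_smul E F L h) hc

lemma inflFL_pow (E : IntermediateField ℚ Qb) (F L : IntermediateField E Qb)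
    (h : F ≤ L) [Normal E F] (c : (F ≃ₐ[E] F) × (F ≃ₐ[E] F) → Fˣ) (n : ℕ)
    (x : (L ≃ₐ[E] L) × (L ≃ₐ[E] L)) :
    inflFL E F L h (fun y => c y ^ n) x = inflFL E F L h c x ^ n := by
  simp only [inflFL, pullCochain, map_pow]

set_option maxHeartbeats 2000000 in
/-- **LOC-6, assembly**: the `p`-torsion of the Brauer group of a local field, from the
sub-rows. -/
theorem brauerP_of (h1 : PTorsionCyclicAbsStatement) (h2 : FinToLvlStatement)
    (h3 : InflCompStatement) (h4 : InflFinInjStatement) (h5 : UnramClassPStatement) :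
    BrauerPStatement := by
  intro p _ q _ E hE
  have hp : p.Prime := Fact.out
  obtain ⟨F₀, hfd, hgal, u, hu, hup, hunc⟩ := h5 p q E hE
  refine ⟨F₀, hfd, hgal, u, hu, hup, ?_⟩
  intro F _ _ c hc hcp
  haveI := hfd
  haveI := hgal
  -- the compositum
  have hFL : F ≤ F ⊔ F₀ := le_sup_left
  have hF₀L : F₀ ≤ F ⊔ F₀ := le_sup_right
  haveI : FiniteDimensional E (F ⊔ F₀ : IntermediateField E Qb) :=
    IntermediateField.finiteDimensional_sup F F₀
  haveI : IsGalois E (F ⊔ F₀ : IntermediateField E Qb) := inferInstance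
  have hc' := isMulCocycle₂_inflFL E F (F ⊔ F₀) hFL hc
  have hu' := isMulCocycle₂_inflFL E F₀ (F ⊔ F₀) hF₀L hu
  have hcp' : IsMulCoboundary₂ (fun x => inflFL E F (F ⊔ F₀) hFL c x ^ p) :=
    isMulCoboundary₂_congr (fun x => inflFL_pow E F (F ⊔ F₀) hFL c p x)
      (isMulCoboundary₂_inflFL E F (F ⊔ F₀) hFL hcp)
  have hup' : IsMulCoboundary₂ (fun x => inflFL E F₀ (F ⊔ F₀) hF₀L u x ^ p) :=
    isMulCoboundary₂_congr (fun x => inflFL_pow E F₀ (F ⊔ F₀) hF₀L u p x)
      (isMulCoboundary₂_inflFL E F₀ (F ⊔ F₀) hF₀L hup)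
  -- the classes
  have hx₁ : p • h2Class hu' = 0 := by
    rw [← natCast_zsmul, zsmul_h2Class_eq_zero_iff]
    refine isMulCoboundary₂_congr (fun x => ?_) hup'
    rw [zpow_natCast]
  have hx₂ : p • h2Class hc' = 0 := by
    rw [← natCast_zsmul, zsmul_h2Class_eq_zero_iff]
    refine isMulCoboundary₂_congr (fun x => ?_) hcp'
    rw [zpow_natCast]
  have hne : h2Class hu' ≠ 0 := by
    intro h0
    rw [h2Class_eq_zero_iff] at h0
    exact hunc (h4 E F₀ (F ⊔ F₀) hF₀L u hu h0)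
  obtain ⟨m, hm⟩ := h1 p q E (F ⊔ F₀ : IntermediateField E Qb)
    (algebraMap (F ⊔ F₀ : IntermediateField E Qb) Qb)
    (isLocalPair_of_intermediateField hE (F ⊔ F₀)) (h2Class hu') (h2Class hc') hx₁ hx₂ hne
  have hcob : IsMulCoboundary₂ (fun x => inflFL E F (F ⊔ F₀) hFL c x /
      inflFL E F₀ (F ⊔ F₀) hF₀L u x ^ m) :=
    (h2Class_sub_zsmul hc' hu' m).mp (by rw [hm]; exact sub_self _)
  -- reduce the exponent modulo `p`
  have hp0 : (p : ℤ) ≠ 0 := by exact_mod_cast hp.ne_zero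
  have hj0 : 0 ≤ m % (p : ℤ) := Int.emod_nonneg m hp0
  obtain ⟨j, hj⟩ := Int.eq_ofNat_of_zero_le hj0
  have hcobj : IsMulCoboundary₂ (fun x => inflFL E F (F ⊔ F₀) hFL c x /
      inflFL E F₀ (F ⊔ F₀) hF₀L u x ^ j) := by
    refine isMulCoboundary₂_congr (fun x => ?_)
      (isMulCoboundary₂_mul hcob (isMulCoboundary₂_zpow hup' (m / (p : ℤ))))
    have hA : inflFL E F₀ (F ⊔ F₀) hF₀L u x ^ m =
        inflFL E F₀ (F ⊔ F₀) hF₀L u x ^ j *
          (inflFL E F₀ (F ⊔ F₀) hF₀L u x ^ p) ^ (m / (p : ℤ)) := by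
      rw [← zpow_natCast _ p, ← zpow_mul, ← zpow_natCast _ j, ← zpow_add, ← hj,
        Int.emod_add_mul_ediv]
    rw [hA, ← div_div, div_mul_cancel]
  obtain ⟨x, hx, hxe⟩ := h2 E (F ⊔ F₀) _ hcobj
  refine ⟨j, x, hx, fun gh => ?_⟩
  rw [hxe gh]
  show inflE E (F ⊔ F₀) (fun x => inflFL E F (F ⊔ F₀) hFL c x /
      inflFL E F₀ (F ⊔ F₀) hF₀L u x ^ j) gh = inflE E F c gh / inflE E F₀ u gh ^ j
  rw [← h3 E F (F ⊔ F₀) hFL c gh, ← h3 E F₀ (F ⊔ F₀) hF₀L u gh]
  simp only [inflE, map_div, map_pow]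

end Fermat.Agent.H24.Brauer

end
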