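/-
P-CFT / LOCAL, block LOC-6 (row 631, architect helper24): SECOND INTERFACE FILE.
Strengthenings needed by the canonical local invariant (`p ^ n`-torsion, helper78's `InvExists`)
and by the local Tate theorem (`H³ = 0`):

* `PGroupCardStatement` / `PGroupCardAbsStatement` : for `p`-group extensions of local fields
  `H²(Gal(F/E), Fˣ)` is cyclic OF ORDER `[F : E]`;
* `PPowTorsionCyclicAbsStatement` : the `p ^ n`-torsion of `H²(Gal(F/K), Fˣ)` lies in the
  subgroup generated by any class whose order is divisible by `p ^ n`;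
* `LocalTateH3AbsStatement` : `H³(Gal(F/K), Fˣ) = 0` for `p`-group extensions of local fields.
-/
import Fermat.Agent.H24.Brauer.Interfaces

set_option autoImplicit false
set_option synthInstance.maxHeartbeats 400000

noncomputable section

open CategoryTheory groupCohomology

namespace Fermat.Agent.H24.Brauer

open Fermat.Agent.H78.CFT Fermat.Agent.H81.Local Fermat.Agent.H61.CFT Fermat.Agent.H49.Unram

/-- **[BR-PCYC+]** `H²(Gal(F/E), Fˣ)` is cyclic of order `[F : E]` if `Gal(F/E)` is a
`p`-group (concrete currency). -/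
def PGroupCardStatement : Prop :=
  ∀ (p q : ℕ) [Fact p.Prime] [Fact q.Prime] (E : IntermediateField ℚ Qb), IsLocalFinite q E →
    ∀ (F : IntermediateField E Qb) [FiniteDimensional E F] [IsGalois E F],
      IsPGroup p (F ≃ₐ[E] F) →
      IsAddCyclic (groupCohomology.H2 (Rep.ofAlgebraAutOnUnits E F)) ∧
        Nat.card (groupCohomology.H2 (Rep.ofAlgebraAutOnUnits E F)) = Module.finrank E F

/-- `H²(Gal(F/K), Fˣ)` is cyclic of order `[F : K]` if `Gal(F/K)` is a `p`-group (abstract
currency). -/
def PGroupCardAbsStatement : Prop :=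
  ∀ (p q : ℕ) [Fact p.Prime] [Fact q.Prime] (K F : Type) [Field K] [Field F] [Algebra K F]
    [FiniteDimensional K F] [IsGalois K F] (j : F →+* Qb), IsLocalPair q K F j →
    IsPGroup p (F ≃ₐ[K] F) →
    IsAddCyclic (groupCohomology.H2 (Rep.ofAlgebraAutOnUnits K F)) ∧
      Nat.card (groupCohomology.H2 (Rep.ofAlgebraAutOnUnits K F)) = Module.finrank K F

/-- **[BR-SYLOW+]** the `p ^ n`-torsion of `H²(Gal(F/K), Fˣ)` is contained in the subgroup
generated by any class `x₁` whose order is divisible by `p ^ n`, for every finite Galois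
extension of local fields (abstract currency). -/
def PPowTorsionCyclicAbsStatement : Prop :=
  ∀ (p q : ℕ) [Fact p.Prime] [Fact q.Prime] (K F : Type) [Field K] [Field F] [Algebra K F]
    [FiniteDimensional K F] [IsGalois K F] (j : F →+* Qb), IsLocalPair q K F j →
    ∀ (n : ℕ) (x₁ x₂ : groupCohomology.H2 (Rep.ofAlgebraAutOnUnits K F)),
      (∀ k : ℤ, k • x₁ = 0 → ((p ^ n : ℕ) : ℤ) ∣ k) → p ^ n • x₂ = 0 → ∃ m : ℤ, x₂ = m • x₁

/-- The `p`-torsion statement is the case `n = 1`. -/
theorem pTorsionCyclicAbs_of_pPow (h : PPowTorsionCyclicAbsStatement) :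
    PTorsionCyclicAbsStatement := by
  intro p q _ _ K F _ _ _ _ _ j hj x₁ x₂ h1 h2 hne
  have hp : p.Prime := Fact.out
  refine h p q K F j hj 1 x₁ x₂ ?_ (by rwa [pow_one])
  intro k hk
  rw [pow_one]
  by_contra hdvd
  have hcop : IsCoprime k (p : ℤ) := by
    rw [isCoprime_comm]
    exact (Nat.prime_iff_prime_int.mp hp).coprime_iff_not_dvd.mpr hdvd
  obtain ⟨a, b, hab⟩ := hcop
  apply hne
  have h1' : (p : ℤ) • x₁ = 0 := by rw [natCast_zsmul]; exact h1
  calc x₁ = (1 : ℤ) • x₁ := (one_zsmul x₁).symm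
    _ = (a * k + b * p) • x₁ := by rw [hab]
    _ = 0 := by rw [add_zsmul, mul_zsmul, mul_zsmul, hk, h1', zsmul_zero, zsmul_zero, add_zero]

/-- **[BR-TATE]** local Tate theorem in degree 3: `H³(Gal(F/K), Fˣ) = 0` for `p`-group
extensions of local fields (abstract currency). -/
def LocalTateH3AbsStatement : Prop :=
  ∀ (p q : ℕ) [Fact p.Prime] [Fact q.Prime] (K F : Type) [Field K] [Field F] [Algebra K F]
    [FiniteDimensional K F] [IsGalois K F] (j : F →+* Qb), IsLocalPair q K F j →
    IsPGroup p (F ≃ₐ[K] F) →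
    Subsingleton (groupCohomology (Rep.ofAlgebraAutOnUnits K F) 3)

end Fermat.Agent.H24.Brauer

end
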