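/-
P-CFT / LOCAL, block LOC-6 (helper24): the local Tate theorem in degree 3,
`H³(Gal(F/K), Fˣ) = 0` for `p`-group extensions of local fields, from
`PGroupCardAbsStatement` (`H²` cyclic of order `[F : K]`), Hilbert 90 and the abstract Tate
theorem of `Fermat.Agent.H24.Tate`.
-/
import Fermat.Agent.H24.Brauer.Interfaces2
import Fermat.Agent.H24.Tate.Final
import Fermat.Agent.H44.CFT.FieldDict

set_option autoImplicit false
set_option linter.style.haveILetI false
set_option synthInstance.maxHeartbeats 400000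

noncomputable section

open CategoryTheory groupCohomology

namespace Fermat.Agent.H24.Brauer

open Fermat.Agent.H78.CFT Fermat.Agent.H81.Local Fermat.Agent.H61.CFT Fermat.Agent.H49.Unram
open Fermat.Agent.H44.CFT

/-- `H²` cyclic of order `[F : K]` in the abstract currency, from the concrete statement. -/
theorem pGroupCardAbs_of (h1 : ConcretizeStatement) (h2 : PGroupCardStatement) :
    PGroupCardAbsStatement := by
  intro p q _ _ K F _ _ _ _ _ j hj hG
  obtain ⟨E₀, hE₀, F₁, hfd, hgal, -, ⟨eG⟩, ⟨eH⟩⟩ := h1 q K F j hj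
  have hP : IsPGroup p (F₁ ≃ₐ[E₀] F₁) := hG.of_equiv eG
  obtain ⟨hc, hcard⟩ := h2 p q E₀ hE₀ F₁ hP
  refine ⟨isAddCyclic_of_surjective eH.symm eH.symm.surjective, ?_⟩
  rw [Nat.card_congr eH.toEquiv, hcard, ← IsGalois.card_aut_eq_finrank,
    ← IsGalois.card_aut_eq_finrank, Nat.card_congr eG.toEquiv]

/-- The classical hypotheses of Tate's theorem for the units of a `p`-group extension of local
fields. -/
theorem tateCyclicHyp_units (h : PGroupCardAbsStatement) (hT : LocalPairTowerStatement)
    (p q : ℕ) [Fact p.Prime] [Fact q.Prime] (K F : Type) [Field K] [Field F] [Algebra K F]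
    [FiniteDimensional K F] [IsGalois K F] (j : F →+* Qb) (hj : IsLocalPair q K F j)
    (hG : IsPGroup p (F ≃ₐ[K] F)) :
    Fermat.Agent.H24.TateCyclicHyp (Rep.ofAlgebraAutOnUnits K F) := by
  obtain ⟨hc, hcard⟩ := h p q K F j hj hG
  refine ⟨⟨hc, by rw [hcard, IsGalois.card_aut_eq_finrank]⟩, fun S => ?_⟩
  have hι : Function.Injective S.subtype := Subtype.val_injective
  refine ⟨h1_res_subsingleton S.subtype hι, ?_⟩
  -- the layer `F / F^S`
  have hpair : IsLocalPair q (layerBase S.subtype) F j :=
    hT q K (layerBase S.subtype) F j hj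
  have hS : IsPGroup p (F ≃ₐ[layerBase S.subtype] F) :=
    (hG.to_subgroup S).of_equiv (layerEquiv S.subtype hι)
  obtain ⟨hc', hcard'⟩ := h p q (layerBase S.subtype) F j hpair hS
  have hcardS : Module.finrank (layerBase S.subtype) F = Nat.card S := by
    rw [← IsGalois.card_aut_eq_finrank, Nat.card_congr (layerEquiv S.subtype hι).toEquiv]
  rw [res_eq_res_layerEquiv S.subtype hι]
  let i := mapIso (A := Rep.ofAlgebraAutOnUnits (layerBase S.subtype) F)
    (B := Rep.res (layerEquiv S.subtype hι).toMonoidHom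
      (Rep.ofAlgebraAutOnUnits (layerBase S.subtype) F))
    (layerEquiv S.subtype hι) (LinearEquiv.refl ℤ _) (fun g => rfl) 2
  have e := i.toLinearEquiv
  refine ⟨?_, ?_⟩
  · rw [Nat.card_congr e.toEquiv]
    exact hcard'.trans hcardS
  · haveI := hc'
    exact isAddCyclic_of_surjective e.symm e.symm.surjective

/-- **[BR-TATE]** local Tate theorem in degree 3 for `p`-group extensions. -/
theorem localTateH3Abs_of (h : PGroupCardAbsStatement) (hT : LocalPairTowerStatement) :
    LocalTateH3AbsStatement := by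
  intro p q _ _ K F _ _ _ _ _ j hj hG
  letI : Fintype (F ≃ₐ[K] F) := Fintype.ofFinite _
  have hC := tateCyclicHyp_units h hT p q K F j hj hG
  have h3 := Fermat.Agent.H24.tate_H3_subsingleton_of_cyclic (Rep.ofAlgebraAutOnUnits K F) hC ⊤
  -- transport from `⊤` to the whole group
  let e : (⊤ : Subgroup (F ≃ₐ[K] F)) ≃* (F ≃ₐ[K] F) := Subgroup.topEquiv
  let i := mapIso (A := Rep.ofAlgebraAutOnUnits K F)
    (B := Rep.res (⊤ : Subgroup (F ≃ₐ[K] F)).subtype (Rep.ofAlgebraAutOnUnits K F))
    e (LinearEquiv.refl ℤ _) (fun g => rfl) 3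
  exact i.toLinearEquiv.symm.toEquiv.subsingleton

end Fermat.Agent.H24.Brauer

end
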