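/-
P-CFT / LOCAL, block LOC-6 (row 631, helper24): INTEGRATION of the landed sub-rows.

Everything is reduced to the single arithmetic leaf `UnramSplitStatement` (row 751):

* `orderBoundAbs            : OrderBoundAbsStatement`                      (unconditional)
* `pGroupCard_of_unramSplit`, `pGroupCardAbs_of_unramSplit`, `pGroupCyclicAbs_of_unramSplit`
* `pTorsionCyclicAbs_of_unramSplit`, `pPowTorsionCyclicAbs_of_unramSplit`
* `brauerP_of_unramSplit    : UnramSplitStatement → BrauerPStatement`
* `localTateH3Abs_of_unramSplit : UnramSplitStatement → LocalTateH3AbsStatement`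
-/
import Fermat.Agent.H24.Brauer.Assembly
import Fermat.Agent.H24.Brauer.LocalTate
import Fermat.Agent.H81.Local.BrPair
import Fermat.Agent.H98.Brauer.Concretize
import Fermat.Agent.H98.Brauer.FinLvl
import Fermat.Agent.H61.CFT.PGroupCard
import Fermat.Agent.H61.CFT.UnramClassP
import Fermat.Agent.H38.Brauer.Sylow
import Fermat.Agent.H38.Brauer.SylowPow

set_option autoImplicit false

noncomputable section

namespace Fermat.Agent.H24.Brauer

open Fermat.Agent.H78.CFT

/-- The order bound for `p`-group extensions of local fields (abstract currency). -/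
theorem orderBoundAbs : OrderBoundAbsStatement :=
  orderBoundAbs_of Fermat.Agent.H81.Local.localPairLayer Fermat.Agent.H81.Local.localDatumAbs

theorem pGroupCard_of_unramSplit (h : UnramSplitStatement) : PGroupCardStatement :=
  Fermat.Agent.H61.Brauer.pGroupCard h orderBoundAbs

theorem pGroupCardAbs_of_unramSplit (h : UnramSplitStatement) : PGroupCardAbsStatement :=
  pGroupCardAbs_of Fermat.Agent.H98.Brauer.concretize (pGroupCard_of_unramSplit h)

theorem pGroupCyclicAbs_of_unramSplit (h : UnramSplitStatement) : PGroupCyclicAbsStatement :=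
  fun p q _ _ K F _ _ _ _ _ j hj hG => (pGroupCardAbs_of_unramSplit h p q K F j hj hG).1

theorem pTorsionCyclicAbs_of_unramSplit (h : UnramSplitStatement) :
    PTorsionCyclicAbsStatement :=
  Fermat.Agent.H38.Brauer.pTorsionCyclicAbs (pGroupCyclicAbs_of_unramSplit h)
    Fermat.Agent.H81.Local.localPairTower

theorem pPowTorsionCyclicAbs_of_unramSplit (h : UnramSplitStatement) :
    PPowTorsionCyclicAbsStatement :=
  Fermat.Agent.H38.Brauer.pPowTorsionCyclicAbs (pGroupCyclicAbs_of_unramSplit h)
    Fermat.Agent.H81.Local.localPairTower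

/-- **LOC-6**: `BrauerPStatement`, from the single arithmetic leaf `UnramSplitStatement`. -/
theorem brauerP_of_unramSplit (h : UnramSplitStatement) : BrauerPStatement :=
  brauerP_of (pTorsionCyclicAbs_of_unramSplit h) Fermat.Agent.H98.Brauer.finToLvl
    Fermat.Agent.H98.Brauer.inflComp Fermat.Agent.H98.Brauer.inflFinInj
    Fermat.Agent.H61.CFT.unramClassP

/-- Local Tate theorem in degree 3 for `p`-group extensions, from `UnramSplitStatement`. -/
theorem localTateH3Abs_of_unramSplit (h : UnramSplitStatement) : LocalTateH3AbsStatement :=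
  localTateH3Abs_of (pGroupCardAbs_of_unramSplit h) Fermat.Agent.H81.Local.localPairTower

end Fermat.Agent.H24.Brauer

end
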