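/-
P-CFT / LOCAL, block LOC-6 (helper24): PACKAGING lemmas between multiplicative cochains
(helper61's `h2Class`, `pullCochain`) and Mathlib's `groupCohomology.map` on `H²`,
for the arithmetic leaf `UnramSplitStatement` (row 751).
-/
import Fermat.Agent.H24.Brauer.Interfaces

set_option autoImplicit false
set_option linter.style.haveILetI false
set_option synthInstance.maxHeartbeats 400000

noncomputable section

open CategoryTheory groupCohomology

namespace Fermat.Agent.H24.Brauer

open Fermat.Agent.H78.CFT Fermat.Agent.H81.Local Fermat.Agent.H61.CFT Fermat.Agent.H49.Unram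

section general

variable {G M : Type} [Group G] [CommGroup M] [MulDistribMulAction G M]

/-- **(P1)** If the restriction of the 2-cocycle `c` to the subgroup `S` is a (multiplicative)
coboundary, then the restriction of its class to `S` vanishes. -/
theorem map_subtype_h2Class_eq_zero (S : Subgroup G) {c : G × G → M} (hc : IsMulCocycle₂ c)
    (b : S → M) (hb : ∀ s t : S, (s : G) • b t / b (s * t) * b s = c ((s : G), (t : G))) :
    groupCohomology.map S.subtype (𝟙 (Rep.res S.subtype (Rep.ofMulDistribMulAction G M))) 2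
      (h2Class hc) = 0 := by
  unfold h2Class
  rw [H2π_comp_map_apply, H2π_eq_zero_iff]
  refine ⟨fun s => Additive.ofMul (b s), ?_⟩
  funext ⟨s, t⟩
  exact congrArg Additive.ofMul (hb s t)

/-- **(P2)** The same with an abstract group `H` mapping injectively onto (a subgroup
containing) `S`. -/
theorem map_subtype_h2Class_eq_zero_of_pull (S : Subgroup G) {c : G × G → M}
    (hc : IsMulCocycle₂ c) {H : Type} [Group H] [MulDistribMulAction H M] (ι : H →* G)
    (hι : Function.Injective ι) (hS : ∀ s ∈ S, ∃ h, ι h = s)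
    (hequiv : ∀ (h : H) (m : M), ι h • m = h • m)
    (hcob : IsMulCoboundary₂ (pullCochain ι (MonoidHom.id M) c)) :
    groupCohomology.map S.subtype (𝟙 (Rep.res S.subtype (Rep.ofMulDistribMulAction G M))) 2
      (h2Class hc) = 0 := by
  obtain ⟨x, hx⟩ := hcob
  choose ℓ hℓ using fun s : S => hS s.1 s.2
  have hmul : ∀ s t : S, ℓ (s * t) = ℓ s * ℓ t := by
    intro s t
    apply hι
    rw [map_mul, hℓ, hℓ, hℓ]
    rfl
  refine map_subtype_h2Class_eq_zero S hc (fun s => x (ℓ s)) (fun s t => ?_)
  have h := hx (ℓ s) (ℓ t)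
  simp only [pullCochain, MonoidHom.id_apply, hℓ] at h
  rw [hmul, ← hℓ s, hequiv, hℓ s]
  exact h

/-- Powers of multiplicative 2-cocycles are 2-cocycles. -/
lemma isMulCocycle₂_zpow {f : G × G → M} (hf : IsMulCocycle₂ f) (m : ℤ) :
    IsMulCocycle₂ (fun x => f x ^ m) := by
  intro g h j
  have := congrArg (fun a => a ^ m) (hf g h j)
  simp only [mul_zpow] at this
  rw [this, smul_zpow']

end general

/-! ### The concrete packaging -/

set_option maxHeartbeats 1000000 in
/-- **(P3)** the order of the inflated class. -/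
theorem dvd_of_zsmul_h2Class_inflFL (hinj : InflFinInjStatement)
    (E : IntermediateField ℚ Qb) (M L : IntermediateField E Qb) (hML : M ≤ L)
    [FiniteDimensional E M] [IsGalois E M] [FiniteDimensional E L] [IsGalois E L]
    {u : (M ≃ₐ[E] M) × (M ≃ₐ[E] M) → Mˣ} (hu : IsMulCocycle₂ u)
    (hu' : IsMulCocycle₂ (inflFL E M L hML u)) {n : ℕ}
    (hord : ∀ m : ℤ, IsMulCoboundary₂ (fun x => u x ^ m) → (n : ℤ) ∣ m) (m : ℤ)
    (hm : m • h2Class hu' = 0) : (n : ℤ) ∣ m := by
  rw [zsmul_h2Class_eq_zero_iff] at hm
  apply hord m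
  apply hinj E M L hML _ (isMulCocycle₂_zpow hu m)
  refine isMulCoboundary₂_congr (fun x => ?_) hm
  simp only [inflFL, pullCochain, map_zpow]

/-- **[BR-UNRAM, cochain form]** what the arithmetic has to provide: an auxiliary finite Galois
`M / E` (the unramified extension of degree `n = [F : E]`) with a 2-cocycle `u` of order
divisible by `n`, and a finite Galois `L ⊇ F, M` such that the inflation of `u` to `Gal(L/E)`
becomes a coboundary on the subgroup `Gal(L/F)`. -/
def UnramSplitCochainStatement : Prop :=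
  ∀ (q : ℕ) [Fact q.Prime] (E : IntermediateField ℚ Qb), IsLocalFinite q E →
    ∀ (F : IntermediateField E Qb) [FiniteDimensional E F] [IsGalois E F],
      ∃ (M L : IntermediateField E Qb) (_ : FiniteDimensional E M) (_ : IsGalois E M)
        (_ : FiniteDimensional E L) (_ : IsGalois E L) (hML : M ≤ L), F ≤ L ∧
        ∃ u : (M ≃ₐ[E] M) × (M ≃ₐ[E] M) → Mˣ, IsMulCocycle₂ u ∧
          (∀ m : ℤ, IsMulCoboundary₂ (fun x => u x ^ m) → (Module.finrank E F : ℤ) ∣ m) ∧
          ∃ b : galSub E F L → Lˣ, ∀ s t : galSub E F L,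
            (s : L ≃ₐ[E] L) • b t / b (s * t) * b s =
              inflFL E M L hML u ((s : L ≃ₐ[E] L), (t : L ≃ₐ[E] L))

set_option maxHeartbeats 1000000 in
/-- `UnramSplitStatement` from its cochain form. -/
theorem unramSplit_of_cochain (hinj : InflFinInjStatement) (h : UnramSplitCochainStatement) :
    UnramSplitStatement := by
  intro q _ E hE F _ _
  obtain ⟨M, L, hfdM, hgM, hfdL, hgL, hML, hFL, u, hu, hord, b, hb⟩ := h q E hE F
  haveI := hfdM
  haveI := hgM
  haveI := hfdL
  haveI := hgL
  have hu' : IsMulCocycle₂ (inflFL E M L hML u) :=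
    isMulCocycle₂_pullCochain (resFL E M L hML) (unitsFL E M L hML) (fun σ a => by
      apply Units.ext
      apply Subtype.ext
      exact resFL_apply E M L hML σ (a : M)) hu
  refine ⟨L, hfdL, hgL, hFL, h2Class hu', ?_, ?_⟩
  · exact fun m hm => dvd_of_zsmul_h2Class_inflFL hinj E M L hML hu hu' hord m hm
  · exact map_subtype_h2Class_eq_zero (galSub E F L) hu' b hb

end Fermat.Agent.H24.Brauer

end
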