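/-
P-CFT / LOCAL, block LOC-6 (helper24): the arithmetic leaf `UnramSplitStatement` (row 751)
split into its two cochain-level halves, in the currency of helper78's `LocalInv`
(`unramExt q E n`, `IsFrobE`, `unitOfE`, `IsUnif`):

* `UnramOrderStatement` : the unramified cocycle `u_n = stdCocycle φ π` on `Gal(E_n/E)` has
  order divisible by `n` (`u_n ^ m` coboundary ⟹ `n ∣ m`);
* `UnramResStatement`   : for `F / E` finite Galois of degree `n`, the inflation of `u_n` to
  `L = F ⊔ E_n` is a coboundary on `Gal(L/F) = galSub E F L`.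
-/
import Fermat.Agent.H24.Brauer.Packaging
import Fermat.Agent.H78.CFT.LocalInv

set_option autoImplicit false
set_option linter.style.haveILetI false
set_option synthInstance.maxHeartbeats 400000

noncomputable section

open CategoryTheory groupCohomology

namespace Fermat.Agent.H24.Brauer

open Fermat.Agent.H78.CFT Fermat.Agent.H81.Local Fermat.Agent.H61.CFT Fermat.Agent.H49.Unram

/-- **[BR-UNRAM a]** the unramified cocycle of degree `n` of a uniformizer has order divisible
by `n`. -/
def UnramOrderStatement : Prop :=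
  ∀ (q : ℕ) [Fact q.Prime] (E : IntermediateField ℚ Qb), IsLocalFinite q E →
    ∀ (n : ℕ), 0 < n → ∀ (φ : unramExt q E n ≃ₐ[E] unramExt q E n), IsFrobE q E n φ →
      ∀ π : Eˣ, IsUnif q E ((π : E) : Qb) →
        IsMulCocycle₂ (stdCocycle φ (unitOfE q E n π)) ∧
        ∀ m : ℤ, IsMulCoboundary₂ (fun x => stdCocycle φ (unitOfE q E n π) x ^ m) →
          (n : ℤ) ∣ m

/-- **[BR-UNRAM b]** `F / E` finite Galois of degree `n`, `L = F ⊔ E_n`: the inflation of the
unramified cocycle of degree `n` to `Gal(L/E)` is a coboundary on the subgroup `Gal(L/F)`. -/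
def UnramResStatement : Prop :=
  ∀ (q : ℕ) [Fact q.Prime] (E : IntermediateField ℚ Qb), IsLocalFinite q E →
    ∀ (F : IntermediateField E Qb) [FiniteDimensional E F] [IsGalois E F] (n : ℕ),
      n = Module.finrank E F →
      ∀ (φ : unramExt q E n ≃ₐ[E] unramExt q E n), IsFrobE q E n φ →
      ∀ π : Eˣ, IsUnif q E ((π : E) : Qb) →
      ∀ (L : IntermediateField E Qb), L = F ⊔ unramExt q E n →
      ∀ (hML : unramExt q E n ≤ L),
        ∃ b : galSub E F L → Lˣ, ∀ s t : galSub E F L,
          (s : L ≃ₐ[E] L) • b t / b (s * t) * b s =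
            inflFL E (unramExt q E n) L hML (stdCocycle φ (unitOfE q E n π))
              ((s : L ≃ₐ[E] L), (t : L ≃ₐ[E] L))

set_option maxHeartbeats 1000000 in
/-- The cochain form of `UnramSplitStatement` from its two halves. -/
theorem unramSplitCochain_of (ha : UnramOrderStatement) (hb : UnramResStatement) :
    UnramSplitCochainStatement := by
  intro q _ E hE F _ _
  have hn : 0 < Module.finrank E F := Module.finrank_pos
  obtain ⟨φ, hφ⟩ := exists_isFrobE hE hn
  obtain ⟨π, hπ⟩ := exists_unif_unit hE
  haveI hfdM : FiniteDimensional E (unramExt q E (Module.finrank E F)) := hφ.finiteDimensional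
  haveI hgM : IsGalois E (unramExt q E (Module.finrank E F)) := hφ.isGalois
  obtain ⟨hu, hord⟩ := ha q E hE _ hn φ hφ π hπ
  obtain ⟨b, hb'⟩ := hb q E hE F _ rfl φ hφ π hπ _ rfl le_sup_right
  exact ⟨unramExt q E (Module.finrank E F), F ⊔ unramExt q E (Module.finrank E F), hfdM, hgM,
    IntermediateField.finiteDimensional_sup _ _, inferInstance, le_sup_right, le_sup_left,
    stdCocycle φ (unitOfE q E (Module.finrank E F) π), hu, hord, b, hb'⟩

/-- `UnramSplitStatement` from its two cochain-level halves. -/
theorem unramSplit_of_parts (hinj : InflFinInjStatement) (ha : UnramOrderStatement)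
    (hb : UnramResStatement) : UnramSplitStatement :=
  unramSplit_of_cochain hinj (unramSplitCochain_of ha hb)

end Fermat.Agent.H24.Brauer

end
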