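/-
P-CFT / LOCAL, block LOC-6, row 920 (helper24): the GALOIS DICTIONARY for the base change
`Gal(L'/F') → galSub E F L ≤ Gal(L/E)`, where `F ≤ L` are intermediate fields of `ℚ̄ / E`,
`F' = F.restrictScalars ℚ` and `L' : IntermediateField F' ℚ̄` has the same carrier as `L`;
and the transport of coboundaries along it.
-/
import Fermat.Agent.H24.Brauer.UnramInterfaces

set_option autoImplicit false
set_option linter.style.haveILetI false
set_option synthInstance.maxHeartbeats 400000

noncomputable section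

open CategoryTheory groupCohomology

namespace Fermat.Agent.H24.Brauer

open Fermat.Agent.H78.CFT Fermat.Agent.H81.Local Fermat.Agent.H61.CFT Fermat.Agent.H49.Unram

section general

variable {G M H M' : Type} [Group G] [CommGroup M] [MulDistribMulAction G M]
  [Group H] [CommGroup M'] [MulDistribMulAction H M']

/-- Transport of a coboundary along an injective `ι' : H →* G` whose range contains `S` and
an equivariant `θ : M' →* M`. -/
theorem exists_coboundary_on_subgroup (S : Subgroup G) (c : G × G → M) (ι' : H →* G)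
    (hι : Function.Injective ι') (hS : ∀ s ∈ S, ∃ h, ι' h = s) (θ : M' →* M)
    (hθ : ∀ (h : H) (m : M'), θ (h • m) = ι' h • θ m) (c' : H × H → M')
    (hc' : ∀ σ τ, θ (c' (σ, τ)) = c (ι' σ, ι' τ)) (hcob : IsMulCoboundary₂ c') :
    ∃ b : S → M, ∀ s t : S, (s : G) • b t / b (s * t) * b s = c ((s : G), (t : G)) := by
  obtain ⟨x, hx⟩ := hcob
  choose ℓ hℓ using fun s : S => hS s.1 s.2
  have hmul : ∀ s t : S, ℓ (s * t) = ℓ s * ℓ t := by
    intro s t
    apply hι
    rw [map_mul, hℓ, hℓ, hℓ]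
    rfl
  refine ⟨fun s => θ (x (ℓ s)), fun s t => ?_⟩
  have h := congrArg θ (hx (ℓ s) (ℓ t))
  rw [map_mul, map_div, hθ, hc', hℓ, hℓ] at h
  show (s : G) • θ (x (ℓ t)) / θ (x (ℓ (s * t))) * θ (x (ℓ s)) = c ((s : G), (t : G))
  rw [hmul]
  exact h

end general

section dict

variable (E : IntermediateField ℚ Qb) (F L : IntermediateField E Qb)
  (L' : IntermediateField (F.restrictScalars ℚ) Qb) (hLL' : ∀ x : Qb, x ∈ L' ↔ x ∈ L)

/-- The identity on carriers, `L' ≃+* L`. -/
def carrierEquiv : L' ≃+* L where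
  toFun x := ⟨x.1, (hLL' x.1).mp x.2⟩
  invFun x := ⟨x.1, (hLL' x.1).mpr x.2⟩
  left_inv _ := rfl
  right_inv _ := rfl
  map_mul' _ _ := rfl
  map_add' _ _ := rfl

@[simp] lemma coe_carrierEquiv (x : L') :
    ((carrierEquiv E F L L' hLL' x : L) : Qb) = (x : Qb) := rfl

@[simp] lemma coe_carrierEquiv_symm (x : L) :
    (((carrierEquiv E F L L' hLL').symm x : L') : Qb) = (x : Qb) := rfl

/-- Base change of automorphisms: `Gal(L'/F') → Gal(L/E)`. -/
def galBC : (L' ≃ₐ[F.restrictScalars ℚ] L') →* (L ≃ₐ[E] L) where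
  toFun σ := AlgEquiv.ofRingEquiv
    (f := ((carrierEquiv E F L L' hLL').symm.trans σ.toRingEquiv).trans
      (carrierEquiv E F L L' hLL'))
    (fun e => by
      apply Subtype.ext
      have h1 : ((carrierEquiv E F L L' hLL').symm (algebraMap E L e) : L') =
          algebraMap (F.restrictScalars ℚ) L' ⟨(e : Qb), F.algebraMap_mem e⟩ :=
        Subtype.ext rfl
      show ((σ ((carrierEquiv E F L L' hLL').symm (algebraMap E L e)) : L') : Qb) = _
      rw [h1, σ.commutes]
      rfl)
  map_one' := by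
    apply AlgEquiv.ext
    intro x
    rfl
  map_mul' σ τ := by
    apply AlgEquiv.ext
    intro x
    rfl

lemma coe_galBC_apply (σ : L' ≃ₐ[F.restrictScalars ℚ] L') (x : L) :
    ((galBC E F L L' hLL' σ x : L) : Qb) =
      ((σ ((carrierEquiv E F L L' hLL').symm x) : L') : Qb) := rfl

lemma galBC_injective : Function.Injective (galBC E F L L' hLL') := by
  intro σ τ h
  apply AlgEquiv.ext
  intro x
  have := congrArg (fun ρ : L ≃ₐ[E] L => ((ρ (carrierEquiv E F L L' hLL' x) : L) : Qb)) h
  exact Subtype.ext this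

lemma galBC_mem_galSub (σ : L' ≃ₐ[F.restrictScalars ℚ] L') :
    galBC E F L L' hLL' σ ∈ galSub E F L := by
  intro x hx
  apply Subtype.ext
  have h1 : ((carrierEquiv E F L L' hLL').symm x : L') =
      algebraMap (F.restrictScalars ℚ) L' ⟨(x : Qb), hx⟩ := Subtype.ext rfl
  rw [coe_galBC_apply, h1, σ.commutes]
  rfl

lemma exists_galBC_eq (s : L ≃ₐ[E] L) (hs : s ∈ galSub E F L) :
    ∃ σ, galBC E F L L' hLL' σ = s := by
  refine ⟨AlgEquiv.ofRingEquiv
    (f := ((carrierEquiv E F L L' hLL').trans s.toRingEquiv).trans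
      (carrierEquiv E F L L' hLL').symm) (fun y => ?_), ?_⟩
  · apply Subtype.ext
    have hy : ((algebraMap (F.restrictScalars ℚ) L' y : L') : Qb) ∈ F := y.2
    have h2 := hs (carrierEquiv E F L L' hLL' (algebraMap (F.restrictScalars ℚ) L' y)) hy
    exact congrArg (fun z : L => (z : Qb)) h2
  · apply AlgEquiv.ext
    intro x
    rfl

/-- The identity on carriers, on units. -/
def unitsBC : L'ˣ →* Lˣ := Units.map ((carrierEquiv E F L L' hLL' : L' →+* L) : L' →* L)

lemma unitsBC_smul (σ : L' ≃ₐ[F.restrictScalars ℚ] L') (m : L'ˣ) :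
    unitsBC E F L L' hLL' (σ • m) = galBC E F L L' hLL' σ • unitsBC E F L L' hLL' m := by
  apply Units.ext
  apply Subtype.ext
  rfl

variable (M : IntermediateField E Qb) (hML : M ≤ L) [Normal E M]

/-- Restriction `Gal(L'/F') → Gal(M/E)`. -/
def iotaBC : (L' ≃ₐ[F.restrictScalars ℚ] L') →* (M ≃ₐ[E] M) :=
  (resFL E M L hML).comp (galBC E F L L' hLL')

/-- The inclusion `M → L'`. -/
def jBC : M →+* L' :=
  ((carrierEquiv E F L L' hLL').symm : L →+* L').comp
    (IntermediateField.inclusion hML : M →+* L)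

omit [Normal E M] in
@[simp] lemma coe_jBC (x : M) : ((jBC E F L L' hLL' M hML x : L') : Qb) = (x : Qb) := rfl

lemma jBC_iotaBC (σ : L' ≃ₐ[F.restrictScalars ℚ] L') (x : M) :
    jBC E F L L' hLL' M hML (iotaBC E F L L' hLL' M hML σ x) =
      σ (jBC E F L L' hLL' M hML x) := by
  apply Subtype.ext
  rw [coe_jBC]
  exact resFL_apply E M L hML (galBC E F L L' hLL' σ) x

lemma unitsBC_pullCochain (u : (M ≃ₐ[E] M) × (M ≃ₐ[E] M) → Mˣ)
    (σ τ : L' ≃ₐ[F.restrictScalars ℚ] L') :
    unitsBC E F L L' hLL' (pullCochain (iotaBC E F L L' hLL' M hML)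
        (Units.map ((jBC E F L L' hLL' M hML : M →+* L') : M →* L')) u (σ, τ)) =
      inflFL E M L hML u (galBC E F L L' hLL' σ, galBC E F L L' hLL' τ) := by
  apply Units.ext
  apply Subtype.ext
  rfl

/-- **Transport**: if the pull-back of `u` to `Gal(L'/F')` is a coboundary, then the inflation
of `u` to `Gal(L/E)` is a coboundary on `galSub E F L`. -/
theorem exists_coboundary_galSub (u : (M ≃ₐ[E] M) × (M ≃ₐ[E] M) → Mˣ)
    (hcob : IsMulCoboundary₂ (pullCochain (iotaBC E F L L' hLL' M hML)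
      (Units.map ((jBC E F L L' hLL' M hML : M →+* L') : M →* L')) u)) :
    ∃ b : galSub E F L → Lˣ, ∀ s t : galSub E F L,
      (s : L ≃ₐ[E] L) • b t / b (s * t) * b s =
        inflFL E M L hML u ((s : L ≃ₐ[E] L), (t : L ≃ₐ[E] L)) :=
  exists_coboundary_on_subgroup (galSub E F L) (inflFL E M L hML u) (galBC E F L L' hLL')
    (galBC_injective E F L L' hLL') (fun s hs => exists_galBC_eq E F L L' hLL' s hs)
    (unitsBC E F L L' hLL') (unitsBC_smul E F L L' hLL') _
    (fun σ τ => unitsBC_pullCochain E F L L' hLL' M hML u σ τ) hcob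

end dict

end Fermat.Agent.H24.Brauer

end
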