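/-
P-CFT / LOCAL, row 834 H3-TATE (helper24): adapter to helper78's `TateLocalAbsStatement`
(`H³(Gal(F/K), Fˣ) = 0` for `p`-group extensions of local fields).
-/
import Fermat.Agent.H24.Brauer.Final
import Fermat.Agent.H78.CFT.LocalInvRows

set_option autoImplicit false

noncomputable section

namespace Fermat.Agent.H24.Brauer

/-- **[H3-TATE]** from the cyclicity and order of `H²` on all layers. -/
theorem tateLocalAbs_of (h : PGroupCardAbsStatement) (hT : LocalPairTowerStatement) :
    Fermat.Agent.H78.CFT.TateLocalAbsStatement :=
  localTateH3Abs_of h hT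

/-- **[H3-TATE]** from the single arithmetic leaf `UnramSplitStatement`. -/
theorem tateLocalAbs_of_unramSplit (h : UnramSplitStatement) :
    Fermat.Agent.H78.CFT.TateLocalAbsStatement :=
  localTateH3Abs_of_unramSplit h

end Fermat.Agent.H24.Brauer

end
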