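/-
P-CFT / LOCAL, block LOC-6 (row 631, architect helper24): MAIN RESULTS, UNCONDITIONAL.

* `brauerP            : Fermat.Agent.H78.CFT.BrauerPStatement`
  (the `p`-torsion of the Brauer group of a local field is generated by the unramified class
  of degree `p`);
* `pGroupCardAbs      : PGroupCardAbsStatement`
  (`H²(Gal(F/K), Fˣ)` is cyclic of order `[F : K]` for `p`-group extensions of local fields);
* `pPowTorsionCyclicAbs : PPowTorsionCyclicAbsStatement`;
* `localTateH3Abs     : LocalTateH3AbsStatement`, `tateLocalAbs : TateLocalAbsStatement`
  (`H³(Gal(F/K), Fˣ) = 0` for `p`-group extensions of local fields).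

Leaves: helper49 (UnramSplit, unramified extensions), helper81 (local pairs, `e f = n`),
helper98 (concretization, finite level vs level), helper61 (`p`-group cyclicity, unramified
classes), helper38 (Sylow), helper44 (order bound), helper75 (inflation-restriction, transfer),
helper78 (norm index theorem).
-/
import Fermat.Agent.H24.Brauer.Final
import Fermat.Agent.H24.Brauer.TateLocal
import Fermat.Agent.H49.Brauer.UnramSplit

set_option autoImplicit false

noncomputable section

namespace Fermat.Agent.H24.Brauer

/-- The arithmetic leaf (helper49). -/
theorem unramSplit : UnramSplitStatement := Fermat.Agent.H49.Brauer.unramSplit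

/-- **LOC-6**: the `p`-torsion of the Brauer group of a local field. -/
theorem brauerP : Fermat.Agent.H78.CFT.BrauerPStatement := brauerP_of_unramSplit unramSplit

theorem pGroupCard : PGroupCardStatement := pGroupCard_of_unramSplit unramSplit

theorem pGroupCardAbs : PGroupCardAbsStatement := pGroupCardAbs_of_unramSplit unramSplit

theorem pGroupCyclicAbs : PGroupCyclicAbsStatement := pGroupCyclicAbs_of_unramSplit unramSplit

theorem pTorsionCyclicAbs : PTorsionCyclicAbsStatement :=
  pTorsionCyclicAbs_of_unramSplit unramSplit

theorem pPowTorsionCyclicAbs : PPowTorsionCyclicAbsStatement :=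
  pPowTorsionCyclicAbs_of_unramSplit unramSplit

/-- **Local Tate theorem in degree 3** for `p`-group extensions of local fields. -/
theorem localTateH3Abs : LocalTateH3AbsStatement := localTateH3Abs_of_unramSplit unramSplit

/-- The same in helper78's interface. -/
theorem tateLocalAbs : Fermat.Agent.H78.CFT.TateLocalAbsStatement :=
  tateLocalAbs_of_unramSplit unramSplit

end Fermat.Agent.H24.Brauer

end
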